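/-
helper860 — S17 / tower H — leaf CRAMER (Mathlib-only).

Cramer's rule as a polynomial identity, in the form needed by the global route to (E3)-upper,
(PART), (VDM), (ADJ) (origin/helper710:coord/S17-H-L1-helper710.md, sec. 3):

* `det_bordered` : Laplace expansion of a bordered determinant over any commutative ring,
    `det [[A, b], [c, d]] = det A * d - ∑ s, det (A.updateRow s c) * b s`.
* `cramer_of_finrank_le` : if `W` is a subspace of `γ → K` of dimension `≤ card κ`, the vectors
    `v s` (`s : κ`) and `w` lie in `W`, then for every choice of columns `T : κ → γ` and every `t`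
    `det (v s (T j))_{s j} * w t = ∑ s, det ((v s (T j)).updateRow s (w ∘ T)) * v s t`.
* `cramer_of_rank_le` : the same for rows `S : κ → ρ` of a matrix `B` with `rank B ≤ card κ`
    and `w` in the row space of `B`.
* adjugate forms of the right-hand side.
-/
import Mathlib

namespace Fermat.Agent.S17.H860

open Matrix

section Bordered

variable {R : Type*} {κ : Type*}

/-- The bordered matrix `[[A, b], [c, d]]`, indexed by `κ ⊕ Unit`. -/
def bordered (A : Matrix κ κ R) (b c : κ → R) (d : R) : Matrix (κ ⊕ Unit) (κ ⊕ Unit) R :=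
  fromBlocks A (replicateCol Unit b) (replicateRow Unit c) (of fun _ _ => d)

@[simp] theorem bordered_inl_inl (A : Matrix κ κ R) (b c : κ → R) (d : R) (i j : κ) :
    bordered A b c d (Sum.inl i) (Sum.inl j) = A i j := rfl

@[simp] theorem bordered_inl_inr (A : Matrix κ κ R) (b c : κ → R) (d : R) (i : κ) (u : Unit) :
    bordered A b c d (Sum.inl i) (Sum.inr u) = b i := rfl

@[simp] theorem bordered_inr_inl (A : Matrix κ κ R) (b c : κ → R) (d : R) (u : Unit) (j : κ) :
    bordered A b c d (Sum.inr u) (Sum.inl j) = c j := rfl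

@[simp] theorem bordered_inr_inr (A : Matrix κ κ R) (b c : κ → R) (d : R) (u u' : Unit) :
    bordered A b c d (Sum.inr u) (Sum.inr u') = d := rfl

variable [CommRing R] [Fintype κ] [DecidableEq κ]

/-- `det (A.updateRow s c) = ∑ j, c j * adj(A) j s`. -/
theorem det_updateRow_eq_sum_adjugate (A : Matrix κ κ R) (s : κ) (c : κ → R) :
    (A.updateRow s c).det = ∑ j, c j * A.adjugate j s := by
  rw [det_eq_sum_mul_adjugate_row (A.updateRow s c) s]
  refine Finset.sum_congr rfl fun j _ => ?_
  rw [updateRow_self, adjugate_apply, adjugate_apply, updateRow_idem]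

/-- `det (A.updateCol j b) = ∑ s, adj(A) j s * b s`. -/
theorem det_updateCol_eq_sum_adjugate (A : Matrix κ κ R) (j : κ) (b : κ → R) :
    (A.updateCol j b).det = ∑ s, A.adjugate j s * b s := by
  rw [← cramer_apply, cramer_eq_adjugate_mulVec]
  rfl

/-- The two ways of writing the correction term in a bordered determinant agree. -/
theorem sum_det_updateRow_mul_eq (A : Matrix κ κ R) (b c : κ → R) :
    ∑ s, (A.updateRow s c).det * b s = ∑ j, c j * (A.updateCol j b).det := by
  simp_rw [det_updateRow_eq_sum_adjugate, det_updateCol_eq_sum_adjugate, Finset.sum_mul,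
    Finset.mul_sum]
  rw [Finset.sum_comm]
  refine Finset.sum_congr rfl fun j _ => Finset.sum_congr rfl fun s _ => ?_
  ring

/-- the `(inr, inr)` cofactor of a bordered matrix -/
theorem adjugate_bordered_inr_inr (A : Matrix κ κ R) (b c : κ → R) (d : R) :
    (bordered A b c d).adjugate (Sum.inr ()) (Sum.inr ()) = A.det := by
  rw [adjugate_apply]
  have h : (bordered A b c d).updateRow (Sum.inr ()) (Pi.single (Sum.inr ()) 1) =
      fromBlocks A (replicateCol Unit b) 0 1 := by
    ext i j
    rcases i with i | i <;> rcases j with j | j <;>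
      simp [bordered, updateRow_apply]
  rw [h, det_fromBlocks_zero₂₁, det_one, mul_one]

/-- the `(inl j, inr)` cofactor of a bordered matrix -/
theorem adjugate_bordered_inl_inr (A : Matrix κ κ R) (b c : κ → R) (d : R) (j : κ) :
    (bordered A b c d).adjugate (Sum.inl j) (Sum.inr ()) = - (A.updateCol j b).det := by
  rw [adjugate_apply]
  set M' := (bordered A b c d).updateRow (Sum.inr ()) (Pi.single (Sum.inl j) 1) with hM'
  have hswap : M'.submatrix id (Equiv.swap (Sum.inl j) (Sum.inr ())) =
      fromBlocks (A.updateCol j b) (replicateCol Unit fun s => A s j) 0 1 := by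
    ext r k
    rcases r with r | r <;> rcases k with k | k
    · by_cases hk : k = j
      · subst hk
        simp [M', updateRow_apply]
      · have : Equiv.swap (Sum.inl j) (Sum.inr ()) (Sum.inl k) = (Sum.inl k : κ ⊕ Unit) :=
          Equiv.swap_apply_of_ne_of_ne (by simpa using hk) (by simp)
        simp [M', updateRow_apply, this, hk]
    · simp [M', updateRow_apply]
    · by_cases hk : k = j
      · subst hk
        simp [M', updateRow_apply]
      · have : Equiv.swap (Sum.inl j) (Sum.inr ()) (Sum.inl k) = (Sum.inl k : κ ⊕ Unit) :=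
          Equiv.swap_apply_of_ne_of_ne (by simpa using hk) (by simp)
        simp [M', updateRow_apply, this, hk]
    · simp [M', updateRow_apply]
  have hdet := det_permute' (Equiv.swap (Sum.inl j) (Sum.inr ())) M'
  rw [hswap, det_fromBlocks_zero₂₁, det_one, mul_one,
    Equiv.Perm.sign_swap (by simp : (Sum.inl j : κ ⊕ Unit) ≠ Sum.inr ())] at hdet
  rw [hdet]
  simp

/-- **Laplace expansion of a bordered determinant** (any commutative ring):
`det [[A, b], [c, d]] = det A * d - ∑ s, det (A.updateRow s c) * b s`. -/
theorem det_bordered (A : Matrix κ κ R) (b c : κ → R) (d : R) :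
    (bordered A b c d).det = A.det * d - ∑ s, (A.updateRow s c).det * b s := by
  rw [det_eq_sum_mul_adjugate_row (bordered A b c d) (Sum.inr ()), Fintype.sum_sum_type,
    sum_det_updateRow_mul_eq]
  simp only [Finset.univ_unique, Finset.sum_singleton, bordered_inr_inl, bordered_inr_inr,
    adjugate_bordered_inl_inr]
  simp only [PUnit.default_eq_unit, adjugate_bordered_inr_inr, mul_neg, Finset.sum_neg_distrib]
  ring

/-- column form of `det_bordered` -/
theorem det_bordered' (A : Matrix κ κ R) (b c : κ → R) (d : R) :
    (bordered A b c d).det = A.det * d - ∑ j, c j * (A.updateCol j b).det := by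
  rw [det_bordered, sum_det_updateRow_mul_eq]

/-- adjugate form of `det_bordered` -/
theorem det_bordered_adjugate (A : Matrix κ κ R) (b c : κ → R) (d : R) :
    (bordered A b c d).det = A.det * d - c ⬝ᵥ (A.adjugate *ᵥ b) := by
  rw [det_bordered']
  simp only [det_updateCol_eq_sum_adjugate, dotProduct, mulVec]

end Bordered

section Field

variable {K : Type*} [Field K] {κ : Type*} [Fintype κ] [DecidableEq κ]

/-- A bordered determinant built from `card κ + 1` vectors of a space of dimension `≤ card κ`
vanishes. -/
theorem det_bordered_eq_zero_of_finrank_le {V : Type*} [AddCommGroup V] [Module K V]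
    [Module.Finite K V] (hV : Module.finrank K V ≤ Fintype.card κ)
    (v : κ → V) (w : V) (φ : κ → V →ₗ[K] K) (ψ : V →ₗ[K] K) :
    (bordered (Matrix.of fun s j => φ j (v s)) (fun s => ψ (v s)) (fun j => φ j w) (ψ w)).det
      = 0 := by
  classical
  apply det_eq_zero_of_not_linearIndependent_rows
  intro hli
  let Φ : V →ₗ[K] (κ ⊕ Unit → K) :=
    LinearMap.pi fun i => Sum.elim (fun j => φ j) (fun _ => ψ) i
  let u : κ ⊕ Unit → V := Sum.elim v fun _ => w
  have hrow : (fun i => bordered (Matrix.of fun s j => φ j (v s)) (fun s => ψ (v s))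
      (fun j => φ j w) (ψ w) i) = Φ ∘ u := by
    funext i k
    rcases i with i | i <;> rcases k with k | k <;> rfl
  rw [hrow] at hli
  have hu : LinearIndependent K u := LinearIndependent.of_comp Φ hli
  have := hu.fintype_card_le_finrank
  simp only [Fintype.card_sum, Fintype.card_unique] at this
  omega

/-- **Cramer's rule as a polynomial identity**, abstract form.  `V` a vector space of dimension
`≤ card κ`, `v s` (`s : κ`) and `w` vectors of `V`, `φ j` (`j : κ`) and `ψ` linear forms. Then
`det (φ j (v s)) * ψ w = ∑ s, det ((φ j (v s)).updateRow s (φ · w)) * ψ (v s)`.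
No hypothesis that the `v s` are independent or that the `φ j` are distinct is needed. -/
theorem cramer_of_finrank_le {V : Type*} [AddCommGroup V] [Module K V]
    [Module.Finite K V] (hV : Module.finrank K V ≤ Fintype.card κ)
    (v : κ → V) (w : V) (φ : κ → V →ₗ[K] K) (ψ : V →ₗ[K] K) :
    (Matrix.of fun s j => φ j (v s)).det * ψ w =
      ∑ s, ((Matrix.of fun s j => φ j (v s)).updateRow s fun j => φ j w).det * ψ (v s) := by
  have h := det_bordered_eq_zero_of_finrank_le hV v w φ ψ
  rw [det_bordered] at h
  exact sub_eq_zero.mp h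

/-- adjugate form of `cramer_of_finrank_le` -/
theorem cramer_adjugate_of_finrank_le {V : Type*} [AddCommGroup V] [Module K V]
    [Module.Finite K V] (hV : Module.finrank K V ≤ Fintype.card κ)
    (v : κ → V) (w : V) (φ : κ → V →ₗ[K] K) (ψ : V →ₗ[K] K) :
    (Matrix.of fun s j => φ j (v s)).det * ψ w =
      ∑ s, ∑ j, φ j w * (Matrix.of fun s j => φ j (v s)).adjugate j s * ψ (v s) := by
  rw [cramer_of_finrank_le hV v w φ ψ]
  refine Finset.sum_congr rfl fun s _ => ?_
  rw [det_updateRow_eq_sum_adjugate, Finset.sum_mul]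

variable {γ : Type*}

/-- **Cramer's rule as a polynomial identity**, coordinate form.  `W` a subspace of `γ → K` of
dimension `≤ card κ`, `v s` (`s : κ`) and `w` vectors of `W`. Then for all `T : κ → γ` (columns)
and every `t : γ`:
`det (v s (T j))_{s j} * w t = ∑ s, det ((v s (T j)).updateRow s (w ∘ T)) * v s t`. -/
theorem cramer_of_mem_submodule (W : Submodule K (γ → K)) [Module.Finite K W]
    (hW : Module.finrank K W ≤ Fintype.card κ)
    (v : κ → γ → K) (hv : ∀ s, v s ∈ W) (w : γ → K) (hw : w ∈ W) (T : κ → γ) (t : γ) :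
    (Matrix.of fun s j => v s (T j)).det * w t =
      ∑ s, ((Matrix.of fun s j => v s (T j)).updateRow s (w ∘ T)).det * v s t :=
  cramer_of_finrank_le hW (fun s => (⟨v s, hv s⟩ : W)) ⟨w, hw⟩
    (fun j => (LinearMap.proj (T j)).comp W.subtype) ((LinearMap.proj t).comp W.subtype)

/-- adjugate form of `cramer_of_mem_submodule` -/
theorem cramer_adjugate_of_mem_submodule (W : Submodule K (γ → K)) [Module.Finite K W]
    (hW : Module.finrank K W ≤ Fintype.card κ)
    (v : κ → γ → K) (hv : ∀ s, v s ∈ W) (w : γ → K) (hw : w ∈ W) (T : κ → γ) (t : γ) :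
    (Matrix.of fun s j => v s (T j)).det * w t =
      ∑ s, ∑ j, w (T j) * (Matrix.of fun s j => v s (T j)).adjugate j s * v s t :=
  cramer_adjugate_of_finrank_le hW (fun s => (⟨v s, hv s⟩ : W)) ⟨w, hw⟩
    (fun j => (LinearMap.proj (T j)).comp W.subtype) ((LinearMap.proj t).comp W.subtype)

variable {ρ : Type*} [Fintype ρ] [Fintype γ]

/-- **Cramer's rule as a polynomial identity**, matrix form.  `B` a matrix of rank `≤ card κ`,
`w` in the row space of `B`.  Then for all `S : κ → ρ` (rows), `T : κ → γ` (columns), `t : γ`: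
`det B_{S,T} * w t = ∑ s, det (B_{S,T}[row s ← w ∘ T]) * B (S s) t`. -/
theorem cramer_of_rank_le (B : Matrix ρ γ K) (hB : B.rank ≤ Fintype.card κ) (w : γ → K)
    (hw : w ∈ Submodule.span K (Set.range B.row)) (S : κ → ρ) (T : κ → γ) (t : γ) :
    (B.submatrix S T).det * w t =
      ∑ s, ((B.submatrix S T).updateRow s (w ∘ T)).det * B (S s) t := by
  have hW : Module.finrank K (Submodule.span K (Set.range B.row)) ≤ Fintype.card κ := by
    rwa [← Matrix.rank_eq_finrank_span_row]
  exact cramer_of_mem_submodule (Submodule.span K (Set.range B.row)) hW (fun s => B (S s))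
    (fun s => Submodule.subset_span ⟨S s, rfl⟩) w hw T t

/-- adjugate form of `cramer_of_rank_le` -/
theorem cramer_adjugate_of_rank_le (B : Matrix ρ γ K) (hB : B.rank ≤ Fintype.card κ) (w : γ → K)
    (hw : w ∈ Submodule.span K (Set.range B.row)) (S : κ → ρ) (T : κ → γ) (t : γ) :
    (B.submatrix S T).det * w t =
      ∑ s, ∑ j, w (T j) * (B.submatrix S T).adjugate j s * B (S s) t := by
  have hW : Module.finrank K (Submodule.span K (Set.range B.row)) ≤ Fintype.card κ := by
    rwa [← Matrix.rank_eq_finrank_span_row]
  exact cramer_adjugate_of_mem_submodule (Submodule.span K (Set.range B.row)) hW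
    (fun s => B (S s)) (fun s => Submodule.subset_span ⟨S s, rfl⟩) w hw T t

end Field

end Fermat.Agent.S17.H860
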