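/-
helper860 — S17 / tower H — abstract core of (E3)-upper / (PART):
the height inequality that Cramer's identity gives.

`B : Matrix ρ γ A` of rank `≤ card κ`, `w j` (`j : J`) vectors in the row space of `B`,
`y : γ → A` a point, `(S i, T i)` (`i : I`) a family of choices of `card κ` rows and columns.
If some minor `det B_{S i, T i}` is nonzero and some `w j ⬝ y` is nonzero then
  `h (minors) + h (w ⬝ y) ≤ h (w) + (card κ - 1) * h (B) + h (B y) + C`
with `C = cramerConst S T J` depending only on the index data.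
-/
import Fermat.Agent.S17.H860.Cramer
import Fermat.Agent.S17.H380.AbsSegre
import Fermat.Agent.S17.H380.AbsEval

set_option linter.unusedSectionVars false

namespace Fermat.Agent.S17.H860

open Matrix MvPolynomial Fermat.Agent.S17.H380

section AdjPoly

variable {κ ρ γ I : Type*} [Fintype κ] [DecidableEq κ]

/-- The entries of the adjugates of the generic `κ × κ` submatrices, as polynomials over `ℚ` in
the entries of a generic `ρ × γ` matrix. -/
noncomputable def adjPoly (S : I → κ → ρ) (T : I → κ → γ) (a : I × κ × κ) :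
    MvPolynomial (ρ × γ) ℚ :=
  adjugate ((mvPolynomialX ρ γ ℚ).submatrix (S a.1) (T a.1)) a.2.1 a.2.2

theorem sum_ite_perm_eq (σ : Equiv.Perm κ) (s : κ) :
    ∑ i : κ, (if σ i = s then 0 else 1) = Fintype.card κ - 1 := by
  have h1 : ∀ i : κ, (if σ i = s then 0 else 1) =
      if i ∈ Finset.univ.erase (σ.symm s) then 1 else 0 := by
    intro i
    by_cases h : σ i = s
    · have : i = σ.symm s := by rw [← h]; simp
      simp [this]
    · have : i ≠ σ.symm s := fun hi => h (by rw [hi]; simp)
      simp [h, this]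
  simp_rw [h1]
  rw [Finset.sum_boole, Finset.filter_mem_eq_inter, Finset.univ_inter,
    Finset.card_erase_of_mem (Finset.mem_univ _), Finset.card_univ]
  simp

theorem adjPoly_isHomogeneous (S : I → κ → ρ) (T : I → κ → γ) (a : I × κ × κ) :
    (adjPoly S T a).IsHomogeneous (Fintype.card κ - 1) := by
  unfold adjPoly
  rw [adjugate_apply, det_apply']
  apply IsHomogeneous.sum
  rintro σ -
  rw [show Fintype.card κ - 1 = 0 + ∑ i : κ, (if σ i = a.2.2 then 0 else 1) by
    rw [sum_ite_perm_eq, zero_add]]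
  apply IsHomogeneous.mul
  · have : ((Equiv.Perm.sign σ : ℤ) : MvPolynomial (ρ × γ) ℚ) = C ((Equiv.Perm.sign σ : ℤ) : ℚ) := by
      simp
    rw [this]
    exact isHomogeneous_C _ _
  · apply IsHomogeneous.prod
    rintro i -
    by_cases h : σ i = a.2.2
    · simp only [h, updateRow_self, if_true]
      by_cases h2 : i = a.2.1
      · subst h2
        simpa using isHomogeneous_one _ _
      · rw [Pi.single_eq_of_ne h2]
        exact isHomogeneous_zero _ _ _
    · simp only [h, if_false, updateRow_ne h, submatrix_apply, mvPolynomialX_apply]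
      exact isHomogeneous_X _ _

variable {A : Type*} [Field A] [CharZero A]

theorem aeval_adjPoly (S : I → κ → ρ) (T : I → κ → γ) (B : Matrix ρ γ A) (a : I × κ × κ) :
    aeval (fun p : ρ × γ => B p.1 p.2) (adjPoly S T a) =
      adjugate (B.submatrix (S a.1) (T a.1)) a.2.1 a.2.2 := by
  unfold adjPoly
  have h := AlgHom.map_adjugate (aeval (R := ℚ) fun p : ρ × γ => B p.1 p.2)
    ((mvPolynomialX ρ γ ℚ).submatrix (S a.1) (T a.1))
  have h2 : (aeval (R := ℚ) fun p : ρ × γ => B p.1 p.2).mapMatrix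
      ((mvPolynomialX ρ γ ℚ).submatrix (S a.1) (T a.1)) = B.submatrix (S a.1) (T a.1) := by
    ext r t
    simp [mvPolynomialX]
  rw [h2] at h
  rw [← h]
  rfl

end AdjPoly

section Main

variable {κ ρ γ I J : Type*} [Fintype κ] [DecidableEq κ] [Fintype ρ] [Fintype γ]
  [Finite I] [Finite J]

/-- The linear forms expressing the right-hand side of Cramer's identity in the coordinates of
the Segre product `w ⊗ adj ⊗ (B y)`. -/
noncomputable def cramerLin (S : I → κ → ρ) (T : I → κ → γ) (J : Type*) (a : I × J) :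
    MvPolynomial ((J × γ) × (I × κ × κ) × ρ) ℚ :=
  ∑ s : κ, ∑ j' : κ, X ((a.2, T a.1 j'), (a.1, j', s), S a.1 s)

theorem cramerLin_isHomogeneous (S : I → κ → ρ) (T : I → κ → γ) (a : I × J) :
    (cramerLin S T J a).IsHomogeneous 1 := by
  unfold cramerLin
  exact IsHomogeneous.sum _ _ _ fun s _ => IsHomogeneous.sum _ _ _ fun j' _ => isHomogeneous_X _ _

/-- The constant in `absLogHeight_cramer_le`; it depends only on the index data. -/
noncomputable def cramerConst (S : I → κ → ρ) (T : I → κ → γ) (J : Type*) [Finite J] : ℝ :=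
  Real.log (max (Height.mulHeightBound (adjPoly S T)) 1) +
    Real.log (max (Height.mulHeightBound (cramerLin S T J)) 1)

theorem cramerConst_nonneg (S : I → κ → ρ) (T : I → κ → γ) : 0 ≤ cramerConst S T J :=
  add_nonneg (Real.log_nonneg (le_max_right _ _)) (Real.log_nonneg (le_max_right _ _))

variable {A : Type*} [Field A] [CharZero A]

/-- Cramer's identity, evaluated at a point `y`. -/
theorem cramer_eval_of_rank_le (B : Matrix ρ γ A) (hrank : B.rank ≤ Fintype.card κ)
    (w : γ → A) (hw : w ∈ Submodule.span A (Set.range B.row)) (y : γ → A)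
    (S : κ → ρ) (T : κ → γ) :
    (B.submatrix S T).det * (w ⬝ᵥ y) =
      ∑ s, ∑ j', w (T j') * ((B.submatrix S T).adjugate j' s * (B *ᵥ y) (S s)) := by
  have h := fun t => cramer_adjugate_of_rank_le B hrank w hw S T t
  calc (B.submatrix S T).det * (w ⬝ᵥ y)
      = ∑ t, ((B.submatrix S T).det * w t) * y t := by
        simp only [dotProduct, Finset.mul_sum, mul_assoc]
    _ = ∑ t, ∑ s, ∑ j', w (T j') * (B.submatrix S T).adjugate j' s * B (S s) t * y t := by
        refine Finset.sum_congr rfl fun t _ => ?_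
        rw [h t, Finset.sum_mul]
        refine Finset.sum_congr rfl fun s _ => ?_
        rw [Finset.sum_mul]
    _ = ∑ s, ∑ t, ∑ j', w (T j') * (B.submatrix S T).adjugate j' s * B (S s) t * y t :=
        Finset.sum_comm
    _ = ∑ s, ∑ j', ∑ t, w (T j') * (B.submatrix S T).adjugate j' s * B (S s) t * y t := by
        refine Finset.sum_congr rfl fun s _ => ?_
        exact Finset.sum_comm
    _ = _ := by
        refine Finset.sum_congr rfl fun s _ => Finset.sum_congr rfl fun j' _ => ?_
        simp only [mulVec, dotProduct, Finset.mul_sum]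
        refine Finset.sum_congr rfl fun t _ => ?_
        ring

/-- **Height form of Cramer's identity**, core: `U` a matrix, `W j` row vectors, `ψu`, `ψw`
extra columns such that Cramer's identity
`det U_{S,T} * ψw j = ∑ s j', W j (T j') * (adj U_{S,T} j' s * ψu (S s))` holds.  If some minor
and some `ψw j` are nonzero then
`h(minors) + h(ψw) ≤ h(W) + (card κ - 1) * h(U) + h(ψu) + cramerConst`. -/
theorem absLogHeight_cramer_core (S : I → κ → ρ) (T : I → κ → γ)
    (U : Matrix ρ γ A) (hU : ∀ r t, IsIntegral ℚ (U r t))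
    (W : J → γ → A) (hWi : ∀ j t, IsIntegral ℚ (W j t))
    (ψu : ρ → A) (hψu : ∀ r, IsIntegral ℚ (ψu r))
    (ψw : J → A) (hψw : ∀ j, IsIntegral ℚ (ψw j))
    (hcr : ∀ i j, (U.submatrix (S i) (T i)).det * ψw j =
      ∑ s, ∑ j', W j (T i j') * ((U.submatrix (S i) (T i)).adjugate j' s * ψu (S i s)))
    (hΔ : ∃ i, (U.submatrix (S i) (T i)).det ≠ 0) (hu : ∃ j, ψw j ≠ 0) :
    absLogHeight (fun i => (U.submatrix (S i) (T i)).det) + absLogHeight ψw
      ≤ absLogHeight (fun p : J × γ => W p.1 p.2)
        + ((Fintype.card κ - 1 : ℕ) : ℝ) * absLogHeight (fun p : ρ × γ => U p.1 p.2)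
        + absLogHeight ψu + cramerConst S T J := by
  classical
  obtain ⟨i₀, hi₀⟩ := hΔ
  obtain ⟨j₀, hj₀⟩ := hu
  -- the vectors
  set Δ : I → A := fun i => (U.submatrix (S i) (T i)).det with hΔdef
  set Wv : J × γ → A := fun p => W p.1 p.2 with hWdef
  set Bv : ρ × γ → A := fun p => U p.1 p.2 with hBvdef
  set Adj : I × κ × κ → A := fun a => adjugate (U.submatrix (S a.1) (T a.1)) a.2.1 a.2.2
    with hAdjdef
  set AB : (I × κ × κ) × ρ → A := fun q => Adj q.1 * ψu q.2 with hABdef
  set Z : (J × γ) × (I × κ × κ) × ρ → A := fun q => Wv q.1 * AB q.2 with hZdef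
  -- integrality
  have hΔi : ∀ i, IsIntegral ℚ (Δ i) := fun i => IsIntegral.det fun _ _ => hU _ _
  have hWvi : ∀ p, IsIntegral ℚ (Wv p) := fun p => hWi _ _
  have hBvi : ∀ p, IsIntegral ℚ (Bv p) := fun p => hU _ _
  have hAdji : ∀ a, IsIntegral ℚ (Adj a) := by
    intro a
    simp only [hAdjdef, adjugate_apply]
    refine IsIntegral.det fun r t => ?_
    by_cases hr : r = a.2.2
    · subst hr
      rw [updateRow_self]
      by_cases ht : t = a.2.1
      · subst ht
        simpa using isIntegral_one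
      · rw [Pi.single_eq_of_ne ht]
        exact isIntegral_zero
    · rw [updateRow_ne hr]
      exact hU _ _
  have hABi : ∀ q, IsIntegral ℚ (AB q) := fun q => (hAdji _).mul (hψu _)
  have hZi : ∀ q, IsIntegral ℚ (Z q) := fun q => (hWvi _).mul (hABi _)
  -- Cramer
  have hcr' : ∀ a : I × J, Δ a.1 * ψw a.2 = aeval Z (cramerLin S T J a) := by
    intro a
    rw [hΔdef]
    simp only
    rw [hcr a.1 a.2]
    simp only [cramerLin, map_sum, aeval_X, hZdef, hABdef, hWdef, hAdjdef]
  -- nonvanishing
  have hL0 : Δ i₀ * ψw j₀ ≠ 0 := mul_ne_zero hi₀ hj₀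
  have hZ0 : Z ≠ 0 := by
    intro hZ
    apply hL0
    have := hcr' (i₀, j₀)
    simp only at this
    rw [this, hZ]
    simp only [cramerLin, map_sum, aeval_X, Pi.zero_apply, Finset.sum_const_zero]
  obtain ⟨q₀, hq₀⟩ := Function.ne_iff.mp hZ0
  have hq₀' : Wv q₀.1 * (Adj q₀.2.1 * ψu q₀.2.2) ≠ 0 := hq₀
  have hW0 : Wv ≠ 0 := fun h => hq₀' (by rw [h]; simp)
  have hAdj0 : Adj ≠ 0 := fun h => hq₀' (by rw [h]; simp)
  have hψu0 : ψu ≠ 0 := fun h => hq₀' (by rw [h]; simp)
  have hAB0 : AB ≠ 0 := by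
    intro h
    apply hq₀'
    have : AB q₀.2 = 0 := by rw [h]; rfl
    have h2 : Adj q₀.2.1 * ψu q₀.2.2 = 0 := this
    rw [h2, mul_zero]
  have hΔ0 : Δ ≠ 0 := fun h => hi₀ (by have := congrFun h i₀; simpa using this)
  have hu0 : ψw ≠ 0 := fun h => hj₀ (by have := congrFun h j₀; simpa using this)
  -- heights
  have h1 : absLogHeight (fun a : I × J => Δ a.1 * ψw a.2) = absLogHeight Δ + absLogHeight ψw :=
    absLogHeight_fun_mul_eq hΔi hψw hΔ0 hu0
  have h2 : absLogHeight Z = absLogHeight Wv + absLogHeight AB :=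
    absLogHeight_fun_mul_eq hWvi hABi hW0 hAB0
  have h3 : absLogHeight AB = absLogHeight Adj + absLogHeight ψu :=
    absLogHeight_fun_mul_eq hAdji hψu hAdj0 hψu0
  have h4 := absLogHeight_eval_le (K₀ := ℚ) (A := A) (p := cramerLin S T J)
    (fun a => cramerLin_isHomogeneous S T a) Z hZi
  have h5 := absLogHeight_eval_le (K₀ := ℚ) (A := A) (p := adjPoly S T)
    (fun a => adjPoly_isHomogeneous S T a) Bv hBvi
  have h5' : (fun a => aeval Bv (adjPoly S T a)) = Adj := by
    funext a
    exact aeval_adjPoly S T U a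
  have h4' : (fun a => aeval Z (cramerLin S T J a)) = fun a : I × J => Δ a.1 * ψw a.2 := by
    funext a
    exact (hcr' a).symm
  rw [h5'] at h5
  rw [h4', h1, h2, h3] at h4
  simp only [Module.finrank_self, Nat.cast_one, inv_one, one_mul] at h4 h5
  unfold cramerConst
  linarith

/-- **Height form of Cramer's identity** (matrix and evaluation point).
`B` a matrix of rank `≤ card κ` with algebraic entries, `w j` vectors in the row space of `B`,
`y` a point.  If some minor `det B_{S i,T i}` is nonzero and some `w j ⬝ y` is nonzero, then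
`h(minors) + h(w ⬝ y) ≤ h(w) + (card κ - 1) * h(B) + h(B y) + cramerConst`. -/
theorem absLogHeight_cramer_le (S : I → κ → ρ) (T : I → κ → γ)
    (B : Matrix ρ γ A) (hB : ∀ r t, IsIntegral ℚ (B r t)) (hrank : B.rank ≤ Fintype.card κ)
    (w : J → γ → A) (hwi : ∀ j t, IsIntegral ℚ (w j t))
    (hw : ∀ j, w j ∈ Submodule.span A (Set.range B.row))
    (y : γ → A) (hy : ∀ t, IsIntegral ℚ (y t))
    (hΔ : ∃ i, (B.submatrix (S i) (T i)).det ≠ 0) (hu : ∃ j, w j ⬝ᵥ y ≠ 0) :
    absLogHeight (fun i => (B.submatrix (S i) (T i)).det) + absLogHeight (fun j => w j ⬝ᵥ y)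
      ≤ absLogHeight (fun p : J × γ => w p.1 p.2)
        + ((Fintype.card κ - 1 : ℕ) : ℝ) * absLogHeight (fun p : ρ × γ => B p.1 p.2)
        + absLogHeight (B *ᵥ y) + cramerConst S T J :=
  absLogHeight_cramer_core S T B hB w hwi (B *ᵥ y)
    (fun r => IsIntegral.sum _ fun t _ => (hB r t).mul (hy t))
    (fun j => w j ⬝ᵥ y) (fun j => IsIntegral.sum _ fun t _ => (hwi j t).mul (hy t))
    (fun i j => cramer_eval_of_rank_le B hrank (w j) (hw j) y (S i) (T i)) hΔ hu

end Main

end Fermat.Agent.S17.H860
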