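/-
helper860 — S17 / tower H — WALL leaf A1 (CRAMER + HEIGHTS), exact frozen statement
`Fermat.Agent.S17.Wall.CramerHeightStatement K` of `S17/H710/Wall/Defs.lean`.
-/
import Fermat.Agent.S17.H710.Wall.Defs
import Fermat.Agent.S17.H860.CramerHeight

set_option autoImplicit false
set_option linter.unusedSectionVars false

namespace Fermat.Agent.S17.H860

open Matrix Fermat.Agent.S17.Wall Fermat.Agent.S17.HContract Fermat.Agent.S17.H380

variable (K : Type*) [Field K] [CharZero K] [Algebra.IsAlgebraic ℚ K]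

/-- **WALL leaf A1.** -/
theorem cramerHeightStatement : CramerHeightStatement K := by
  intro κ σ τ c _ _ _
  classical
  refine ⟨cramerConst (κ := Fin κ) (ρ := σ) (γ := c) (I := (Fin κ → σ) × (Fin κ → c))
    (fun i => i.1) (fun i => i.2) τ, ?_⟩
  intro U ψu W ψw hrk hmin hψw
  have hint : ∀ a : K, IsIntegral ℚ a := fun a => (Algebra.IsAlgebraic.isAlgebraic a).isIntegral
  set V : Submodule K (c ⊕ Unit → K) := Submodule.span K (Set.range (stack U ψu W ψw)) with hV
  have hcard : Module.finrank K V ≤ Fintype.card (Fin κ) := by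
    rw [Fintype.card_fin]; exact hrk
  have hmem : ∀ r, stack U ψu W ψw r ∈ V := fun r => Submodule.subset_span ⟨r, rfl⟩
  have hcr : ∀ (i : (Fin κ → σ) × (Fin κ → c)) (j : τ),
      ((Matrix.of U).submatrix i.1 i.2).det * ψw j =
        ∑ s, ∑ j', W j (i.2 j') * (((Matrix.of U).submatrix i.1 i.2).adjugate j' s *
          ψu (i.1 s)) := by
    intro i j
    have h := cramer_adjugate_of_mem_submodule V hcard
      (fun s => stack U ψu W ψw (Sum.inl (i.1 s))) (fun s => hmem _)
      (stack U ψu W ψw (Sum.inr j)) (hmem _) (fun j' => Sum.inl (i.2 j')) (Sum.inr ())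
    have e1 : (Matrix.of fun s j' => stack U ψu W ψw (Sum.inl (i.1 s)) (Sum.inl (i.2 j'))) =
        (Matrix.of U).submatrix i.1 i.2 := rfl
    rw [e1] at h
    have e2 : stack U ψu W ψw (Sum.inr j) (Sum.inr ()) = ψw j := rfl
    rw [e2] at h
    rw [h]
    refine Finset.sum_congr rfl fun s _ => Finset.sum_congr rfl fun j' _ => ?_
    have e3 : stack U ψu W ψw (Sum.inr j) (Sum.inl (i.2 j')) = W j (i.2 j') := rfl
    have e4 : stack U ψu W ψw (Sum.inl (i.1 s)) (Sum.inr ()) = ψu (i.1 s) := rfl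
    rw [e3, e4, mul_assoc]
  have hΔ : ∃ i : (Fin κ → σ) × (Fin κ → c), ((Matrix.of U).submatrix i.1 i.2).det ≠ 0 := by
    obtain ⟨i, hi⟩ := Function.ne_iff.mp hmin
    exact ⟨i, hi⟩
  have hu : ∃ j, ψw j ≠ 0 := Function.ne_iff.mp hψw
  have key := absLogHeight_cramer_core (κ := Fin κ) (I := (Fin κ → σ) × (Fin κ → c))
    (fun i => i.1) (fun i => i.2) (Matrix.of U) (fun _ _ => hint _) W (fun _ _ => hint _)
    ψu (fun _ => hint _) ψw (fun _ => hint _) hcr hΔ hu
  rw [Fintype.card_fin] at key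
  have e5 : (fun i : (Fin κ → σ) × (Fin κ → c) => ((Matrix.of U).submatrix i.1 i.2).det) =
      minors κ U := rfl
  rw [e5] at key
  have e6 : (fun p : σ × c => (Matrix.of U) p.1 p.2) = fun q : σ × c => U q.1 q.2 := rfl
  rw [e6] at key
  unfold ht
  linarith

end Fermat.Agent.S17.H860
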